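import Fermat.Agent.Ribet.H103.AlgPSpec

/-!
# RIBET, wall at `p`, S2 / ALG-p — leaf LABEL (helper832)

`label : Fermat.Agent.Ribet.H103.AlgP.LabelLeaf` (VERBATIM the frozen leaf of
`Ribet/H103/AlgPSpec.lean`): if `u` is wildly pure at `n` and `τ ζ = ζ ^ k`, then
`τ u / u ^ k` is locally factored (wild form) at `n`.

Core (`deepAt_tau_div`): for a prime `q ∋ w` of the chart and `π ∈ w R` with
`τ π = π (k + w s)`:  `v ∈ 1 + π B_q  ⟹  τ v / v ^ k ∈ 1 + π w B_q`.
It is applied with `π = (ζ - 1) ^ p` at `n` and with `π = ζ - 1` on the components.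
-/

set_option autoImplicit false

namespace Fermat.Agent.Ribet.H832

open Fermat.Agent.A2 Fermat.Agent.A2.Alg Fermat.Agent.A2.Alg.H34
open Fermat.Agent.Ribet.H103.AlgP

section Core

variable {R E F : Type*} [CommRing R] [Field E] [Algebra R E] [Field F] [Algebra E F]
  [Algebra R F] [IsScalarTower R E F]

/-- `τ` on the constants of `R` inside `F`. -/
theorem tau_algebraMap_h832 (w : R) (B : Subalgebra R F) (τ : F ≃+* F) (τE : E ≃+* E)
    (τR : R ≃+* R) (hτ : TauCtx w B τ τE τR) (r : R) :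
    τ (algebraMap R F r) = algebraMap R F (τR r) := by
  rw [IsScalarTower.algebraMap_apply R E F, hτ.hτE, hτ.hτR, ← IsScalarTower.algebraMap_apply]

/-- **Core of LABEL.**  `v ∈ 1 + π B_q`, `τ π = π (k + w s)`, `π ∈ w R`, `w ∈ q`
`⟹ τ v / v ^ k ∈ 1 + π w B_q`. -/
theorem deepAt_tau_div (w : R) (B : Subalgebra R F) (τ : F ≃+* F) (τE : E ≃+* E)
    (τR : R ≃+* R) (hτ : TauCtx w B τ τE τR) (k : ℕ) (π s e : R)
    (hπτ : τR π = π * (k + w * s)) (hπw : π = w * e)
    (q : Ideal B) (hq : q.IsPrime) (hwq : algebraMap R B w ∈ q) (v : F)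
    (hv : DeepAt B q π v) : DeepAt B q (π * w) (τ v * (v ^ k)⁻¹) := by
  obtain ⟨a, b, hb, hab, hvb⟩ := hv
  obtain ⟨z, hz⟩ := Ideal.mem_span_singleton'.1 hab
  obtain ⟨a', ca, ha', hca⟩ := exists_tau_eq w B τ hτ.hτB a
  obtain ⟨b', cb, hb', hcb⟩ := exists_tau_eq w B τ hτ.hτB b
  obtain ⟨z', cz, hz', hcz⟩ := exists_tau_eq w B τ hτ.hτB z
  -- `a ∉ q`, `b' ∉ q`
  have hπq : algebraMap R B π ∈ q := by
    rw [hπw, map_mul]
    exact q.mul_mem_right _ hwq
  have ha : a ∉ q := by
    intro h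
    apply hb
    have h1 : b = a - z * algebraMap R B π := by rw [hz]; ring
    rw [h1]
    exact q.sub_mem h (q.mul_mem_left _ hπq)
  have hb'q : b' ∉ q := by
    intro h
    apply hb
    have h1 : b = b' - algebraMap R B w * cb := by rw [← hcb]; ring
    rw [h1]
    exact q.sub_mem h (q.mul_mem_right _ hwq)
  have ha0 : (a : F) ≠ 0 := by
    intro h
    apply ha
    have : a = 0 := Subtype.ext h
    rw [this]
    exact q.zero_mem
  have hb0 : (b : F) ≠ 0 := by
    intro h
    apply hb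
    have : b = 0 := Subtype.ext h
    rw [this]
    exact q.zero_mem
  have hv0 : v ≠ 0 := by
    rintro rfl
    rw [zero_mul] at hvb
    exact ha0 hvb.symm
  -- the transformed relation `a' - b' = τ π * z'`
  have hrel : a' - b' = algebraMap R B (π * (k + w * s)) * z' := by
    apply Subtype.ext
    have h1 : ((a - b : B) : F) = ((z * algebraMap R B π : B) : F) := by rw [hz]
    have h2 : (a : F) - (b : F) = (z : F) * algebraMap R F π := by
      simpa using h1
    have h3 := congrArg τ h2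
    rw [map_sub, map_mul, tau_algebraMap_h832 w B τ τE τR hτ, hπτ, ← ha', ← hb', ← hz'] at h3
    push_cast
    rw [h3]
    have : ((algebraMap R B (π * (k + w * s)) : B) : F) = algebraMap R F (π * (k + w * s)) :=
      rfl
    simp only [map_mul, map_add, map_natCast] at this ⊢
    ring
  refine ⟨a' * b ^ k, b' * a ^ k, ?_, ?_, ?_⟩
  · intro h
    rcases hq.mem_or_mem h with h | h
    · exact hb'q h
    · exact ha (hq.mem_of_pow_mem _ h)
  · rw [Ideal.mem_span_singleton']
    have hab' : a = b + algebraMap R B π * z := by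
      rw [mul_comm, hz]; ring
    have hπw' : algebraMap R B π = algebraMap R B w * algebraMap R B e := by
      rw [hπw, map_mul]
    rcases Nat.eq_zero_or_pos k with hk | hk
    · subst hk
      refine ⟨algebraMap R B s * z', ?_⟩
      simp only [pow_zero, mul_one, map_mul, Nat.cast_zero, zero_add] at hrel ⊢
      rw [hrel]
      ring
    · obtain ⟨k', rfl⟩ : ∃ k', k = k' + 1 := ⟨k - 1, by omega⟩
      obtain ⟨t, ht⟩ := Polynomial.powAddExpansion (b : B) (algebraMap R B π * z) (k' + 1)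
      have hb'e : b' = b + algebraMap R B w * cb := by rw [← hcb]; ring
      have hz'e : z' = z + algebraMap R B w * cz := by rw [← hcz]; ring
      have ha'e : a' = b' + algebraMap R B (π * ((k' + 1 : ℕ) + w * s)) * z' := by
        rw [← hrel]; ring
      refine ⟨((k' + 1 : ℕ) : B) * (cz * b ^ (k' + 1) - cb * b ^ k' * z)
        + algebraMap R B s * z' * b ^ (k' + 1) - b' * t * algebraMap R B e * z ^ 2, ?_⟩
      rw [ha'e, hab', ht]
      simp only [map_mul, map_add, map_natCast, Nat.add_sub_cancel]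
      rw [hb'e, hz'e, hπw']
      ring
  · have hτv : τ v * (b' : F) = (a' : F) := by
      rw [hb', ha', ← map_mul, hvb]
    have hvk : v ^ k * (b : F) ^ k = (a : F) ^ k := by
      rw [← mul_pow, hvb]
    have hvk0 : v ^ k ≠ 0 := pow_ne_zero k hv0
    push_cast
    rw [← hτv, ← hvk]
    field_simp

end Core

section Consts

variable {R : Type*} [CommRing R] [IsDomain R] [IsDiscreteValuationRing R]

/-- `ζ - 1` is divisible by the uniformiser. -/
theorem zeta_sub_one_eq (p : ℕ) (hp : p.Prime) (hpR : (p : R) ∈ IsLocalRing.maximalIdeal R)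
    (ζ : R) (hζ : IsPrimitiveRoot ζ p) (w : R) (hw : Irreducible w) :
    ∃ e : R, ζ - 1 = w * e := by
  have : Fact p.Prime := ⟨hp⟩
  have hp0 : ((p : ℕ) : IsLocalRing.ResidueField R) = 0 := by
    have := (IsLocalRing.residue_eq_zero_iff (p : R)).2 hpR
    simpa using this
  have : CharP (IsLocalRing.ResidueField R) p := (CharP.charP_iff_prime_eq_zero hp).2 hp0
  have h1 : (IsLocalRing.residue R ζ - 1) ^ p = 0 := by
    rw [sub_pow_char, one_pow, ← map_pow, hζ.pow_eq_one, map_one, sub_self]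
  have h2 : IsLocalRing.residue R (ζ - 1) = 0 := by
    rw [map_sub, map_one]
    exact pow_eq_zero_iff hp.ne_zero |>.1 h1
  have h3 : ζ - 1 ∈ IsLocalRing.maximalIdeal R := (IsLocalRing.residue_eq_zero_iff _).1 h2
  rw [hw.maximalIdeal_eq, Ideal.mem_span_singleton'] at h3
  obtain ⟨e, he⟩ := h3
  exact ⟨e, by rw [← he, mul_comm]⟩

/-- `(k + w r) ^ p ≡ k` modulo the uniformiser. -/
theorem natCast_add_pow_eq (p : ℕ) (hp : p.Prime) (hpR : (p : R) ∈ IsLocalRing.maximalIdeal R)
    (w : R) (hw : Irreducible w) (k : ℕ) (r : R) :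
    ∃ s : R, ((k : R) + w * r) ^ p = k + w * s := by
  have : Fact p.Prime := ⟨hp⟩
  have hp0 : ((p : ℕ) : IsLocalRing.ResidueField R) = 0 := by
    have := (IsLocalRing.residue_eq_zero_iff (p : R)).2 hpR
    simpa using this
  have : CharP (IsLocalRing.ResidueField R) p := (CharP.charP_iff_prime_eq_zero hp).2 hp0
  have hwm : w ∈ IsLocalRing.maximalIdeal R := by
    rw [hw.maximalIdeal_eq]
    exact Ideal.mem_span_singleton_self _
  have hw0 : IsLocalRing.residue R w = 0 := (IsLocalRing.residue_eq_zero_iff _).2 hwm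
  have h1 : IsLocalRing.residue R (((k : R) + w * r) ^ p - k) = 0 := by
    rw [map_sub, map_pow, map_add, map_mul, hw0, zero_mul, add_zero, map_natCast]
    have := map_natCast (frobenius (IsLocalRing.ResidueField R) p) k
    rw [frobenius_def] at this
    rw [this, sub_self]
  have h3 := (IsLocalRing.residue_eq_zero_iff _).1 h1
  rw [hw.maximalIdeal_eq, Ideal.mem_span_singleton'] at h3
  obtain ⟨s, hs⟩ := h3
  exact ⟨s, by linear_combination -hs⟩

end Consts

/-- **Leaf LABEL** (frozen statement of `Ribet/H103/AlgPSpec.lean`, verbatim). -/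
theorem label : LabelLeaf := by
  intro R E F _ _ _ _ _ _ _ _ _ _ _ _ _ p hp hpR ζ hζ w hw B c τ τE τR hτ k hk u hu n hn hwn hW
  obtain ⟨g, hg, hdeep, h1, h2⟩ := hW
  -- constants
  obtain ⟨e, he⟩ := zeta_sub_one_eq p hp hpR ζ hζ w hw
  obtain ⟨t, ht⟩ := Polynomial.powAddExpansion (1 : R) (ζ - 1) k
  have hτl : τR (ζ - 1) = (ζ - 1) * (k + w * (e * t)) := by
    rw [map_sub, map_one, hk]
    have : ζ ^ k = (1 + (ζ - 1)) ^ k := by ring_nf
    rw [this, ht, one_pow, one_pow, mul_one]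
    linear_combination (t * (ζ - 1)) * he
  obtain ⟨s, hs⟩ := natCast_add_pow_eq p hp hpR w hw k (e * t)
  have hτlp : τR ((ζ - 1) ^ p) = (ζ - 1) ^ p * (k + w * s) := by
    rw [map_pow, hτl, mul_pow, hs]
  have hp1 : p = (p - 1) + 1 := by have := hp.pos; omega
  have hlp : (ζ - 1) ^ p = w * (e * (ζ - 1) ^ (p - 1)) := by
    conv_lhs => rw [hp1, pow_succ, he]
    rw [he]
    ring
  have hw₁ : algebraMap R B w ∈ c.p₁ := by
    have : algebraMap R B w ∈ c.p₁ ⊓ c.p₂ := by
      rw [c.inf_eq]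
      exact Ideal.mem_span_singleton_self _
    exact this.1
  have hw₂ : algebraMap R B w ∈ c.p₂ := by
    have : algebraMap R B w ∈ c.p₁ ⊓ c.p₂ := by
      rw [c.inf_eq]
      exact Ideal.mem_span_singleton_self _
    exact this.2
  have hτg : τ g ≠ 0 := (map_ne_zero τ).2 hg
  have hgk : g ^ k ≠ 0 := pow_ne_zero k hg
  have huk : u ^ k ≠ 0 := pow_ne_zero k hu
  refine ⟨τ g * (g ^ k)⁻¹, mul_ne_zero hτg (inv_ne_zero hgk), ?_, ?_, ?_⟩
  · have key : τ u * (u ^ k)⁻¹ * (τ g * (g ^ k)⁻¹) ^ p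
        = τ (u * g ^ p) * ((u * g ^ p) ^ k)⁻¹ := by
      rw [map_mul, map_pow, mul_pow, mul_pow, inv_pow, mul_inv, ← pow_mul, ← pow_mul,
        mul_comm p k]
      ring
    rw [key]
    exact deepAt_tau_div w B τ τE τR hτ k _ s _ hτlp hlp n hn hwn _ hdeep
  · intro h
    exact deepAt_tau_div w B τ τE τR hτ k _ (e * t) e hτl he c.p₁ c.prime₁ hw₁ g (h1 h)
  · intro h
    exact deepAt_tau_div w B τ τE τR hτ k _ (e * t) e hτl he c.p₂ c.prime₂ hw₂ g (h2 h)

end Fermat.Agent.Ribet.H832
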